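import Mathlib
import Fermat.Agent.JAC.Vol.Sandwich63
import Fermat.Agent.JAC.Div2.Pull69
import Fermat.Agent.JAC.Div2.Gam69

/-!
# JAC / S26 track, chapter FIN, brick FIN2 (helper63): SANDWICH for a finite morphism

`φ : X ⟶ Y` an integral (e.g. finite) dominant morphism of integral `K`-schemes, `Y` normal,
`K(X) / K(Y)` finite separable of degree `d`, `D` an effective Cartier divisor on `Y` with affine
complement and finite dimensional `L(kD)`.  Then for some `m` and all `k ≥ m`

  `d · dim L((k - m) D) ≤ dim L(k φ^*D) ≤ d · dim L((k + m) D)`.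

This is `Vol/Sandwich63.sandwich` instantiated with `O' y := O_{Y,y}` and
`O y := ⋂_{x ↦ y} O_{X,x}`.
-/

set_option autoImplicit false

universe u v

open AlgebraicGeometry CategoryTheory TopologicalSpace Opposite
open Fermat.Agent.JAC.Div2.Stalk69 Fermat.Agent.JAC.Div2.CaDiv69 Fermat.Agent.JAC.Div2.Pull69
open Fermat.Agent.JAC.Vol

namespace Fermat.Agent.JAC.Fin.SandwichScheme63

noncomputable section

variable {X Y : Scheme.{u}} [IsIntegral X] [IsIntegral Y]

/-- The locus where a rational function is regular. -/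
def regularLocus (z : X.functionField) : X.Opens :=
  ⟨{x | z ∈ stalkRing X x}, isOpen_iff_forall_mem_open.mpr fun _ hx =>
    let ⟨U, hxU, hU⟩ := exists_opens_forall_mem_stalkRing hx
    ⟨U, fun y hy => hU y hy, U.isOpen, hxU⟩⟩

theorem mem_regularLocus_iff {z : X.functionField} {x : X} :
    x ∈ regularLocus z ↔ z ∈ stalkRing X x := Iff.rfl

omit [IsIntegral X] [IsIntegral Y] in
/-- For a closed map, every open neighbourhood of a fibre contains the preimage of an affine open
neighbourhood of the point. -/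
theorem exists_affineOpen_preimage_le (φ : X ⟶ Y) (hcl : IsClosedMap φ) (y : Y) (W : X.Opens)
    (hW : ∀ x, φ x = y → x ∈ W) : ∃ V : Y.Opens, IsAffineOpen V ∧ y ∈ V ∧ φ ⁻¹ᵁ V ≤ W := by
  have hcl' : IsClosed (φ '' (W : Set X)ᶜ) := hcl _ W.isOpen.isClosed_compl
  have hy : y ∈ (φ '' (W : Set X)ᶜ)ᶜ := by
    rintro ⟨x, hx, rfl⟩
    exact hx (hW x rfl)
  obtain ⟨_, ⟨V, hV, rfl⟩, hyV, hVsub⟩ :=
    Y.isBasis_affineOpens.exists_subset_of_mem_open hy hcl'.isOpen_compl
  refine ⟨V, hV, hyV, fun x hx => ?_⟩
  by_contra hxW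
  exact hVsub hx ⟨x, hxW, rfl⟩

section Scalars

variable {K : Type v} [Field K]
  [Algebra K X.functionField] [RegularScalars K X]
  [Algebra K Y.functionField] [RegularScalars K Y]
  [Algebra Y.functionField X.functionField]

omit [Algebra K X.functionField] [RegularScalars K X] in
/-- Sections over the preimage of an affine open `V ∋ y` are integral over `O_{Y,y}`. -/
theorem isIntegral_germ (φ : X ⟶ Y) [IsIntegralHom φ] [IsDominant φ]
    (halg : algebraMap Y.functionField X.functionField = pullFun φ)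
    {V : Y.Opens} (hV : IsAffineOpen V) {y : Y} (hy : y ∈ V)
    (hη : genericPoint X ∈ φ ⁻¹ᵁ V) (b : Γ(X, φ ⁻¹ᵁ V)) :
    IsIntegral (stalkAlg Y K y) (X.presheaf.germ (φ ⁻¹ᵁ V) (genericPoint X) hη b) := by
  have hηY : genericPoint Y ∈ V := genericPoint_mem_of_mem hy
  let _ : Algebra Γ(Y, V) Γ(X, φ ⁻¹ᵁ V) := (φ.app V).hom.toAlgebra
  have hb : IsIntegral Γ(Y, V) b := IsIntegralHom.isIntegral_app φ V hV b
  let ρ : Γ(Y, V) →+* stalkAlg Y K y :=
    RingHom.codRestrict (Y.presheaf.germ V (genericPoint Y) hηY).hom (stalkAlg Y K y)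
      (fun s => germ_mem_stalkRing hy s)
  refine IsIntegral.map_of_comp_eq ρ (X.presheaf.germ (φ ⁻¹ᵁ V) (genericPoint X) hη).hom ?_ hb
  ext s
  change algebraMap Y.functionField X.functionField
      (Y.presheaf.germ V (genericPoint Y) hηY s) =
    X.presheaf.germ (φ ⁻¹ᵁ V) (genericPoint X) hη (φ.app V s)
  rw [halg, pullFun_germ]

omit [Algebra K X.functionField] [RegularScalars K X] in
/-- **Integrality of the semilocal ring of a fibre.**  A rational function on `X` which is
regular at all points of the fibre over `y` is integral over `O_{Y,y}`. -/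
theorem isIntegral_of_forall_mem_stalkRing (φ : X ⟶ Y) [IsIntegralHom φ] [IsDominant φ]
    (halg : algebraMap Y.functionField X.functionField = pullFun φ)
    (y : Y) (z : X.functionField) (hz : ∀ x, φ x = y → z ∈ stalkRing X x) :
    IsIntegral (stalkAlg Y K y) z := by
  obtain ⟨V, hV, hyV, hVW⟩ :=
    exists_affineOpen_preimage_le φ φ.isClosedMap y (regularLocus z) hz
  have hη : genericPoint X ∈ φ ⁻¹ᵁ V :=
    genericPoint_mem_preimage φ (genericPoint_mem_of_mem hyV)
  have : Nonempty (φ ⁻¹ᵁ V) := ⟨⟨_, hη⟩⟩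
  have hzU : z ∈ sectionRing X (φ ⁻¹ᵁ V) :=
    mem_sectionRing_iff.mpr fun x hx => hVW hx
  obtain ⟨b, rfl⟩ := exists_section_of_mem_sectionRing hzU
  exact isIntegral_germ φ halg hV hyV hη b

omit [IsIntegral X] [Algebra K X.functionField] [Algebra Y.functionField X.functionField] in
/-- The local rings of a normal integral scheme are integrally closed in the function field. -/
theorem mem_stalkAlg_of_isIntegral (y : Y) [IsIntegrallyClosed (Y.presheaf.stalk y)]
    (u : Y.functionField) (hu : IsIntegral (stalkAlg Y K y) u) : u ∈ stalkAlg Y K y := by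
  let ι : stalkAlg Y K y →+* stalkRing Y y :=
    RingHom.codRestrict (stalkAlg Y K y).val.toRingHom (stalkRing Y y) (fun a => a.2)
  let ρ : stalkAlg Y K y →+* Y.presheaf.stalk y :=
    ((stalkEquiv Y y).symm : stalkRing Y y →+* Y.presheaf.stalk y).comp ι
  have h : (algebraMap (Y.presheaf.stalk y) Y.functionField).comp ρ =
      (RingHom.id Y.functionField).comp (algebraMap (stalkAlg Y K y) Y.functionField) := by
    ext a
    change algebraMap (Y.presheaf.stalk y) Y.functionField ((stalkEquiv Y y).symm (ι a)) = a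
    rw [← coe_stalkEquiv, RingEquiv.apply_symm_apply]
    rfl
  have h1 : IsIntegral (Y.presheaf.stalk y) u :=
    IsIntegral.map_of_comp_eq ρ (RingHom.id Y.functionField) h hu
  obtain ⟨s, hs⟩ := IsIntegrallyClosed.isIntegral_iff.mp h1
  exact ⟨s, hs⟩

/-- Over an affine open `V ⊆ Y`, every rational function on `X` becomes regular on `φ⁻¹V` after
multiplication by a nonzero rational function on `Y`. -/
theorem exists_mul_mem_sectionRing (φ : X ⟶ Y) [IsIntegralHom φ] [IsDominant φ]
    (halg : algebraMap Y.functionField X.functionField = pullFun φ)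
    {V : Y.Opens} (hV : IsAffineOpen V) [Nonempty V] (z : X.functionField) :
    ∃ v : Y.functionField, v ≠ 0 ∧
      algebraMap Y.functionField X.functionField v * z ∈ sectionRing X (φ ⁻¹ᵁ V) := by
  have hηY : genericPoint Y ∈ V := genericPoint_mem_of_mem (Classical.arbitrary V).2
  have hη : genericPoint X ∈ φ ⁻¹ᵁ V := genericPoint_mem_preimage φ hηY
  have : Nonempty (φ ⁻¹ᵁ V) := ⟨⟨_, hη⟩⟩
  have hU : IsAffineOpen (φ ⁻¹ᵁ V) := hV.preimage φ
  have := functionField_isFractionRing_of_isAffineOpen X (φ ⁻¹ᵁ V) hU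
  let _ : Algebra Γ(Y, V) Γ(X, φ ⁻¹ᵁ V) := (φ.app V).hom.toAlgebra
  have : Algebra.IsIntegral Γ(Y, V) Γ(X, φ ⁻¹ᵁ V) :=
    ⟨IsIntegralHom.isIntegral_app φ V hV⟩
  obtain ⟨a, s, hs, rfl⟩ := IsFractionRing.div_surjective (A := Γ(X, φ ⁻¹ᵁ V)) z
  have hs0 : s ≠ 0 := nonZeroDivisors.ne_zero hs
  obtain ⟨c, d, hd, hdc⟩ := Algebra.IsAlgebraic.exists_smul_eq_mul Γ(Y, V) a hs0
  refine ⟨Y.germToFunctionField V d, ?_, ?_⟩
  · intro h0
    exact hd (Scheme.germToFunctionField_injective Y V (h0.trans (map_zero _).symm))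
  · have h1 : algebraMap Y.functionField X.functionField (Y.germToFunctionField V d) =
        algebraMap Γ(X, φ ⁻¹ᵁ V) X.functionField (algebraMap Γ(Y, V) Γ(X, φ ⁻¹ᵁ V) d) := by
      rw [halg]
      exact pullFun_germ φ V hηY d
    have hs' : algebraMap Γ(X, φ ⁻¹ᵁ V) X.functionField s ≠ 0 := by
      intro h0
      exact hs0 (Scheme.germToFunctionField_injective X (φ ⁻¹ᵁ V) (h0.trans (map_zero _).symm))
    have h2 : algebraMap Y.functionField X.functionField (Y.germToFunctionField V d) *
        (algebraMap Γ(X, φ ⁻¹ᵁ V) X.functionField a /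
          algebraMap Γ(X, φ ⁻¹ᵁ V) X.functionField s) =
        algebraMap Γ(X, φ ⁻¹ᵁ V) X.functionField c := by
      rw [h1, mul_div_assoc', ← map_mul, ← Algebra.smul_def, hdc, map_mul,
        mul_div_cancel_left₀ _ hs']
    rw [h2]
    exact germ_mem_sectionRing c

/-! ### The instantiation of `Sandwich63` -/

/-- The local rings of `Y`. -/
abbrev locY (K : Type v) [Field K] [Algebra K Y.functionField] [RegularScalars K Y] :
    Y → Subalgebra K Y.functionField := fun y => stalkAlg Y K y

/-- The semilocal rings of the fibres of `φ`. -/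
abbrev locX (K : Type v) [Field K] [Algebra K X.functionField] [RegularScalars K X]
    (φ : X ⟶ Y) : Y → Subalgebra K X.functionField :=
  fun y => ⨅ x : {x : X // φ x = y}, stalkAlg X K x.1

/-- The local equations of `D` as rational functions. -/
abbrev eqFun (D : CaDiv Y) : Y → Y.functionField := fun y => (D.eq y : Y.functionField)

omit [IsIntegral X] [Algebra K X.functionField] [RegularScalars K X]
  [Algebra Y.functionField X.functionField] in
theorem L_locY_eq (D : CaDiv Y) (k : ℕ) :
    Basic63.L (locY K) (eqFun D) k = CaDiv.LK K (k • D) := by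
  ext f
  simp only [Basic63.mem_L, CaDiv.mem_LK_iff, CaDiv.mem_L_iff, CaDiv.eq_nsmul,
    Units.val_pow_eq_pow_val, mem_stalkAlg_iff]

omit [Algebra K Y.functionField] [RegularScalars K Y] in
theorem L_locX_eq (φ : X ⟶ Y) [IsDominant φ]
    (halg : algebraMap Y.functionField X.functionField = pullFun φ) (D : CaDiv Y) (k : ℕ) :
    Basic63.L (locX K φ) (Sandwich63.hF (eqFun D)) k = CaDiv.LK K (k • CaDiv.pull φ D) := by
  ext f
  simp only [Basic63.mem_L, CaDiv.mem_LK_iff, CaDiv.mem_L_iff, CaDiv.eq_nsmul,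
    Units.val_pow_eq_pow_val, CaDiv.pull_eq, coe_pullUnits, Algebra.mem_iInf, mem_stalkAlg_iff,
    Subtype.forall, Sandwich63.hF, eqFun, halg]
  constructor
  · intro h x
    exact h (φ x) x rfl
  · rintro h y x rfl
    exact h x

variable [IsScalarTower K Y.functionField X.functionField]
  [FiniteDimensional Y.functionField X.functionField]
  [Algebra.IsSeparable Y.functionField X.functionField]

/-- **FIN2: SANDWICH for an integral (e.g. finite) dominant morphism onto a normal scheme.** -/
theorem sandwich_finite (φ : X ⟶ Y) [IsIntegralHom φ] [IsDominant φ] [CompactSpace X]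
    (halg : algebraMap Y.functionField X.functionField = pullFun φ)
    [∀ y : Y, IsIntegrallyClosed (Y.presheaf.stalk y)]
    (D : CaDiv Y) (hD : D.IsEffective) (hU : IsAffineOpen D.suppCompl)
    (hfin : ∀ k : ℕ, Module.Finite K (CaDiv.LK K (k • D))) :
    ∃ m : ℕ, ∀ k : ℕ, m ≤ k →
      Module.Finite K (CaDiv.LK K (k • CaDiv.pull φ D)) ∧
      Module.finrank Y.functionField X.functionField *
          Module.finrank K (CaDiv.LK K ((k - m) • D)) ≤
        Module.finrank K (CaDiv.LK K (k • CaDiv.pull φ D)) ∧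
      Module.finrank K (CaDiv.LK K (k • CaDiv.pull φ D)) ≤
        Module.finrank Y.functionField X.functionField *
          Module.finrank K (CaDiv.LK K ((k + m) • D)) := by
  have hsub : ∀ y, ∀ u ∈ locY K y, algebraMap Y.functionField X.functionField u ∈ locX K φ y := by
    intro y u hu
    rw [Algebra.mem_iInf]
    rintro ⟨x, rfl⟩
    rw [halg]
    exact pullFun_mem_stalkRing φ hu
  have htr : ∀ y, ∀ z ∈ locX K φ y, Algebra.trace Y.functionField X.functionField z ∈ locY K y :=
    Sandwich63.trace_mem_of_isIntegral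
      (fun y u hu => mem_stalkAlg_of_isIntegral y u hu)
      (fun y z hz => isIntegral_of_forall_mem_stalkRing φ halg y z
        (fun x hx => (Algebra.mem_iInf.mp hz ⟨x, hx⟩)))
  have heff : ∀ y, eqFun D y ∈ locY K y := fun y => hD y
  have hfin' : ∀ k, Module.Finite K (Basic63.L (locY K) (eqFun D) k) := by
    intro k
    rw [L_locY_eq]
    exact hfin k
  have hfrac : ∀ z : X.functionField, ∃ v : Y.functionField, v ≠ 0 ∧
      algebraMap Y.functionField X.functionField v * z ∈
        Basic63.Gam (locX K φ) (Sandwich63.hF (eqFun D)) (Sandwich63.hF_mem hsub heff) := by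
    intro z
    obtain ⟨v, hv0, hv⟩ := exists_mul_mem_sectionRing φ halg hU z
    refine ⟨v, hv0, ?_⟩
    rw [← CaDiv.suppCompl_pull φ hD] at hv
    obtain ⟨m, hm⟩ := (Div2.Gam69.mem_sectionRing_suppCompl_iff (CaDiv.pull φ D) (CaDiv.IsEffective.pull hD φ)).mp hv
    refine ⟨m, ?_⟩
    rw [L_locX_eq φ halg]
    exact hm
  obtain ⟨m, hm⟩ := Sandwich63.sandwich hsub htr heff hfin' hfrac
  refine ⟨m, fun k hk => ?_⟩
  have h1 := (hm k).1
  have h2 := (hm (k - m)).2.1
  have h3 := (hm k).2.2
  rw [Nat.sub_add_cancel hk] at h2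
  rw [L_locX_eq φ halg] at h1 h2 h3
  rw [L_locY_eq] at h2 h3
  exact ⟨h1, h2, h3⟩

end Scalars

/-! ### The form for `K`-schemes given by structure morphisms -/

section OfHom

variable {K : Type u} [Field K]

/-- For a morphism of `K`-schemes, `K → K(Y) → K(X)` is a tower. -/
theorem isScalarTower_of_hom (φ : X ⟶ Y) [IsDominant φ]
    (fX : X ⟶ Spec (CommRingCat.of K)) (fY : Y ⟶ Spec (CommRingCat.of K)) (hφ : φ ≫ fY = fX) :
    letI := algebraOfHom fX
    letI := algebraOfHom fY
    letI := (pullFun φ).toAlgebra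
    IsScalarTower K Y.functionField X.functionField := by
  let _ := algebraOfHom fX
  let _ := algebraOfHom fY
  let _ := (pullFun φ).toAlgebra
  exact IsScalarTower.of_algebraMap_eq fun k =>
    (pullFun_toFunctionFieldOfHom φ fY fX hφ k).symm

/-- **FIN2** for `K`-schemes `fX : X ⟶ Spec K`, `fY : Y ⟶ Spec K` and a `K`-morphism `φ`, with
all structures spelled out: `K` acts by `CaDiv69.algebraOfHom`, and `K(Y)` acts on `K(X)` by
`(Pull69.pullFun φ).toAlgebra`. -/
theorem sandwich_finite_of_hom (φ : X ⟶ Y) [IsIntegralHom φ] [IsDominant φ] [CompactSpace X]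
    (fX : X ⟶ Spec (CommRingCat.of K)) (fY : Y ⟶ Spec (CommRingCat.of K)) (hφ : φ ≫ fY = fX)
    [∀ y : Y, IsIntegrallyClosed (Y.presheaf.stalk y)]
    (hfd : letI := (pullFun φ).toAlgebra
      FiniteDimensional Y.functionField X.functionField)
    (hsep : letI := (pullFun φ).toAlgebra
      Algebra.IsSeparable Y.functionField X.functionField)
    (D : CaDiv Y) (hD : D.IsEffective) (hU : IsAffineOpen D.suppCompl)
    (hfin : letI := algebraOfHom fY
      haveI := regularScalars_of_hom fY
      ∀ k : ℕ, Module.Finite K (CaDiv.LK K (k • D))) :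
    letI := algebraOfHom fX
    haveI := regularScalars_of_hom fX
    letI := algebraOfHom fY
    haveI := regularScalars_of_hom fY
    letI := (pullFun φ).toAlgebra
    ∃ m : ℕ, ∀ k : ℕ, m ≤ k →
      Module.Finite K (CaDiv.LK K (k • CaDiv.pull φ D)) ∧
      Module.finrank Y.functionField X.functionField *
          Module.finrank K (CaDiv.LK K ((k - m) • D)) ≤
        Module.finrank K (CaDiv.LK K (k • CaDiv.pull φ D)) ∧
      Module.finrank K (CaDiv.LK K (k • CaDiv.pull φ D)) ≤
        Module.finrank Y.functionField X.functionField *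
          Module.finrank K (CaDiv.LK K ((k + m) • D)) := by
  let _ := algebraOfHom fX
  have := regularScalars_of_hom fX
  let _ := algebraOfHom fY
  have := regularScalars_of_hom fY
  let _ := (pullFun φ).toAlgebra
  have := isScalarTower_of_hom φ fX fY hφ
  exact sandwich_finite φ rfl D hD hU hfin

end OfHom

end

end Fermat.Agent.JAC.Fin.SandwichScheme63
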