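import Mathlib
import Fermat.Agent.JAC.Vol.Growth63
import Fermat.Agent.JAC.Vol.TrdegSmooth63
import Fermat.Agent.JAC.Div2.Proper69
import Fermat.Agent.JAC.Fin.SandwichScheme63

/-!
# JAC / S26 track, chapter FIN, brick GROW (helper63): volume growth on a proper variety

`f : A ⟶ Spec K` proper, `A` integral, `K` perfect, `D` an effective Cartier divisor whose
complement is affine.  Then `c k^g ≤ dim_K L(kD) ≤ C k^g` for all `k ≥ 1`, where `g` is the size
of a separating transcendence basis of `K(A) / K`; if `f` is smooth of relative dimension `g`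
this is the same `g`.
-/

set_option autoImplicit false

universe u

open AlgebraicGeometry CategoryTheory TopologicalSpace Opposite
open Fermat.Agent.JAC.Div2.Stalk69 Fermat.Agent.JAC.Div2.CaDiv69
open Fermat.Agent.JAC.Vol Fermat.Agent.JAC.Vol.TrdegSmooth63
open Fermat.Agent.JAC.Fin.SandwichScheme63

namespace Fermat.Agent.JAC.Fin.GrowthScheme63

noncomputable section

variable {K : Type u} [Field K] {A : Scheme.{u}} [IsIntegral A]
  (f : A ⟶ Spec (CommRingCat.of K))

omit [IsIntegral A] in
/-- Sections over an affine open of a scheme locally of finite type over `K` form a finitely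
generated `K`-algebra. -/
theorem finiteType_toSections [LocallyOfFiniteType f] {U : A.Opens} (hU : IsAffineOpen U) :
    (toSections f U).FiniteType := by
  have h1 : (f.appLE ⊤ U le_top).hom.FiniteType :=
    f.finiteType_appLE (isAffineOpen_top (Spec (CommRingCat.of K))) hU le_top
  exact RingHom.finiteType_respectsIso.right _
    (Scheme.ΓSpecIso (CommRingCat.of K)).symm.commRingCatIsoToRingEquiv h1

section

variable [Algebra K A.functionField] [RegularScalars K A]
  (halg : algebraMap K A.functionField = toFunctionFieldOfHom f)

include halg in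
/-- `Γ(A, U) → K(A)` as a `K`-algebra map, for the `K`-structure `toSections f U`. -/
theorem sectionAlg_fg [LocallyOfFiniteType f] {U : A.Opens} (hU : IsAffineOpen U) [Nonempty U] :
    (sectionAlg A K U).FG := by
  let _ : Algebra K Γ(A, U) := (toSections f U).toAlgebra
  have hft : Algebra.FiniteType K Γ(A, U) := finiteType_toSections f hU
  let ψ : Γ(A, U) →ₐ[K] A.functionField :=
    { (A.germToFunctionField U).hom with
      commutes' := fun c => by
        change (A.germToFunctionField U).hom (toSections f U c) = algebraMap K A.functionField c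
        rw [germ_toSections, halg] }
  have hrange : sectionAlg A K U = ψ.range := by
    ext z
    rw [mem_sectionAlg_iff, mem_sectionRing_iff_exists]
    rfl
  rw [hrange, ← Algebra.map_top]
  exact hft.out.map ψ

/-- The sections over a nonempty affine open generate the function field. -/
theorem adjoin_sectionAlg_eq_top {U : A.Opens} (hU : IsAffineOpen U) [Nonempty U] :
    IntermediateField.adjoin K
      ((sectionAlg A K U : Subalgebra K A.functionField) : Set A.functionField) = ⊤ := by
  have := functionField_isFractionRing_of_isAffineOpen A U hU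
  rw [eq_top_iff]
  intro z _
  obtain ⟨a, s, -, rfl⟩ := IsFractionRing.div_surjective (A := Γ(A, U)) z
  have ha : algebraMap Γ(A, U) A.functionField a ∈ IntermediateField.adjoin K
      ((sectionAlg A K U : Subalgebra K A.functionField) : Set A.functionField) :=
    IntermediateField.subset_adjoin K _ ((mem_sectionAlg_iff K).mpr (germ_mem_sectionRing a))
  have hs : algebraMap Γ(A, U) A.functionField s ∈ IntermediateField.adjoin K
      ((sectionAlg A K U : Subalgebra K A.functionField) : Set A.functionField) :=
    IntermediateField.subset_adjoin K _ ((mem_sectionAlg_iff K).mpr (germ_mem_sectionRing s))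
  exact div_mem ha hs

/-- `Gam` of the abstract VOL chapter is the ring of sections over the complement of `D`. -/
theorem gam_eq_sectionAlg [CompactSpace A] (D : CaDiv A) (hD : D.IsEffective)
    (heff : ∀ y, eqFun D y ∈ locY K y) :
    Basic63.Gam (locY K) (eqFun D) heff = sectionAlg A K D.suppCompl := by
  ext z
  rw [Div2.Gam69.mem_sectionAlg_suppCompl_iff K D hD, Basic63.mem_Gam]
  simp only [L_locY_eq]

end

/-- **GROW.**  Volume growth of an effective Cartier divisor with affine complement on a proper
integral scheme over a perfect field: `c k^g ≤ dim L(kD) ≤ C k^g` where `g` is the size of a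
separating transcendence basis `x` of the function field. -/
theorem growth_of_proper [PerfectField K] [IsProper f] (D : CaDiv A) (hD : D.IsEffective)
    (hU : IsAffineOpen D.suppCompl) :
    letI := algebraOfHom f
    haveI := regularScalars_of_hom f
    ∃ (g : ℕ) (x : Fin g → A.functionField), (AlgebraicIndependent K x ∧
      Algebra.IsSeparable (IntermediateField.adjoin K (Set.range x)) A.functionField ∧
      IsTranscendenceBasis K x) ∧ ∃ c C : ℝ, 0 < c ∧ 0 < C ∧
      ∀ k : ℕ, 1 ≤ k → Module.Finite K (CaDiv.LK K (k • D)) ∧
        c * (k : ℝ) ^ g ≤ (Module.finrank K (CaDiv.LK K (k • D)) : ℝ) ∧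
        (Module.finrank K (CaDiv.LK K (k • D)) : ℝ) ≤ C * (k : ℝ) ^ g := by
  let _ := algebraOfHom f
  have := regularScalars_of_hom f
  have hcpt : CompactSpace A := QuasiCompact.compactSpace_of_compactSpace f
  have hne : ∀ y, eqFun D y ≠ 0 := fun y => (D.eq y).ne_zero
  have heff : ∀ y, eqFun D y ∈ locY K y := fun y => hD y
  have hprop := Div2.Proper69.hprop_of_universallyClosed f
  have hfg : (Basic63.Gam (locY K) (eqFun D) heff).FG := by
    rw [gam_eq_sectionAlg D hD heff]
    exact sectionAlg_fg f rfl hU
  have htop : IntermediateField.adjoin K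
      ((Basic63.Gam (locY K) (eqFun D) heff : Subalgebra K A.functionField) :
        Set A.functionField) = ⊤ := by
    rw [gam_eq_sectionAlg D hD heff]
    exact adjoin_sectionAlg_eq_top hU
  obtain ⟨g, x, hx, c, C, hc, hC, hk⟩ :=
    Growth63.exists_growth_sep (O := locY K) (h := eqFun D) hne heff hprop hfg htop
  refine ⟨g, x, hx, c, C, hc, hC, fun k hk1 => ?_⟩
  have h := hk k hk1
  rw [L_locY_eq] at h
  exact h

/-- **GROW**, smooth case: the exponent is the relative dimension. -/
theorem growth_of_proper_smooth [PerfectField K] [IsProper f] (g : ℕ)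
    [SmoothOfRelativeDimension g f] (D : CaDiv A) (hD : D.IsEffective)
    (hU : IsAffineOpen D.suppCompl) :
    letI := algebraOfHom f
    haveI := regularScalars_of_hom f
    ∃ c C : ℝ, 0 < c ∧ 0 < C ∧
      ∀ k : ℕ, 1 ≤ k → Module.Finite K (CaDiv.LK K (k • D)) ∧
        c * (k : ℝ) ^ g ≤ (Module.finrank K (CaDiv.LK K (k • D)) : ℝ) ∧
        (Module.finrank K (CaDiv.LK K (k • D)) : ℝ) ≤ C * (k : ℝ) ^ g := by
  let _ := algebraOfHom f
  have := regularScalars_of_hom f
  obtain ⟨m, x, ⟨hxi, hxs, -⟩, hrest⟩ := growth_of_proper f D hD hU
  have hmg : m = g := eq_relDim_of_separating f g rfl x hxi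
  subst hmg
  exact hrest

end

end Fermat.Agent.JAC.Fin.GrowthScheme63
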