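import Mathlib
import Fermat.Agent.JAC.Div2.Pull69
import Fermat.Agent.JAC.Norm.Centre50

set_option autoImplicit false

universe u

open AlgebraicGeometry CategoryTheory Limits
open Fermat.Agent.JAC.Div2

namespace Fermat.Agent.JAC.Fin.Degree31

section Rank

variable {X Y : Scheme.{u}} (φ : X ⟶ Y)

/-- The affine chart of a finite morphism over an affine open is a pullback square. -/
theorem isPullback_fromSpec [IsAffineHom φ] {V : Y.Opens} (hV : IsAffineOpen V) :
    IsPullback (hV.preimage φ).fromSpec (Spec.map (φ.app V)) φ hV.fromSpec := by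
  have h1 : IsPullback (φ ⁻¹ᵁ V).ι (φ ∣_ V) φ V.ι := (isPullback_morphismRestrict φ V).flip
  have hcomm : (hV.preimage φ).isoSpec.inv ≫ (φ ∣_ V) =
      Spec.map (φ.app V) ≫ hV.isoSpec.inv := by
    rw [← cancel_mono V.ι, Category.assoc, Category.assoc, morphismRestrict_ι,
      IsAffineOpen.isoSpec_inv_ι, ← Category.assoc, IsAffineOpen.isoSpec_inv_ι,
      Scheme.Hom.app_eq_appLE, IsAffineOpen.SpecMap_appLE_fromSpec]
  have h2 : IsPullback (hV.preimage φ).isoSpec.inv (Spec.map (φ.app V)) (φ ∣_ V)
      hV.isoSpec.inv := IsPullback.of_horiz_isIso ⟨hcomm⟩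
  exact h2.paste_horiz h1

/-- **The rank of a finite flat morphism, computed on an affine chart.** -/
theorem finrank_fromSpec [IsFinite φ] [Flat φ] {V : Y.Opens} (hV : IsAffineOpen V)
    (z : PrimeSpectrum Γ(Y, V)) :
    φ.finrank (hV.fromSpec z) = (φ.app V).hom.finrank z := by
  have hfin : (φ.app V).hom.Finite := IsFinite.finite_app φ V hV
  have hflat : (φ.app V).hom.Flat := by
    rw [Scheme.Hom.app_eq_appLE]
    exact Scheme.Hom.flat_appLE φ hV (hV.preimage φ) le_rfl
  have : IsFinite (Spec.map (φ.app V)) := (IsFinite.SpecMap_iff _).2 hfin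
  have : Flat (Spec.map (φ.app V)) := (Flat.SpecMap_iff).2 hflat
  rw [← Scheme.Hom.finrank_of_isPullback _ _ _ _ (isPullback_fromSpec φ hV) z,
    Scheme.Hom.finrank_SpecMap_eq_finrank hfin hflat]

end Rank



section Alg

variable (A B K L : Type*) [CommRing A] [CommRing B] [Field K] [Field L] [Algebra A B]
  [Algebra A K] [Algebra B L] [Algebra K L] [Algebra A L] [IsScalarTower A B L]
  [IsScalarTower A K L] [IsFractionRing A K] [IsFractionRing B L] [IsDomain A] [IsDomain B]
  [Module.Finite A B]

include K L in
omit [IsFractionRing B L] [IsDomain A] [IsDomain B] [Module.Finite A B] in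
theorem faithfulSMul_of_tower : FaithfulSMul A B := by
  rw [faithfulSMul_iff_algebraMap_injective]
  have h1 : Function.Injective (algebraMap A L) := by
    rw [IsScalarTower.algebraMap_eq A K L]
    exact (algebraMap K L).injective.comp (IsFractionRing.injective A K)
  rw [IsScalarTower.algebraMap_eq A B L] at h1
  exact Function.Injective.of_comp h1

/-- The fraction field of a finite extension domain is the base change of the extension to the
fraction field of the base. -/
theorem isPushout_of_finite : Algebra.IsPushout A K B L := by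
  have := faithfulSMul_of_tower A B K L
  have : Algebra.IsAlgebraic A B := Algebra.IsIntegral.isAlgebraic
  exact ⟨Algebra.IsAlgebraic.isBaseChange_of_isFractionRing A B K L⟩

include A B in
theorem finite_of_finite : Module.Finite K L := by
  have h := isPushout_of_finite A B K L
  exact Module.Finite.equiv (Algebra.IsPushout.equiv A K B L).toLinearEquiv

theorem finrank_eq_rankAtStalk [Module.Flat A B] :
    Module.finrank K L = Module.rankAtStalk (R := A) B ⟨⊥, Ideal.isPrime_bot⟩ := by
  have h := isPushout_of_finite A B K L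
  have hfin := finite_of_finite A B K L
  have h1 := Module.rankAtStalk_isBaseChange (R := A) (M := B) (S := K) (Mₛ := L) h.out
    ⟨⊥, Ideal.isPrime_bot⟩
  rw [Module.rankAtStalk_eq_finrank_of_free] at h1
  have h2 : Module.finrank K L = Module.rankAtStalk (R := A) B
      (PrimeSpectrum.comap (algebraMap A K) ⟨⊥, Ideal.isPrime_bot⟩) := h1
  rw [h2]
  congr 1
  ext a
  simp only [PrimeSpectrum.comap_asIdeal, Ideal.mem_comap, Ideal.mem_bot]
  exact (map_eq_zero_iff _ (IsFractionRing.injective A K))

include A B in
theorem isSeparable_of_etale [Algebra.Etale A B] : Algebra.IsSeparable K L := by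
  have h := isPushout_of_finite A B K L
  have hfin := finite_of_finite A B K L
  have he : Algebra.Etale K L :=
    Algebra.Etale.of_equiv (Algebra.IsPushout.equiv A K B L)
  exact (Algebra.FormallyEtale.iff_isSeparable K L).1 inferInstance

end Alg



section Scheme

variable {X Y : Scheme.{u}} [IsIntegral X] [IsIntegral Y] (φ : X ⟶ Y) [IsDominant φ]

/-- `K(X)` as an algebra over `K(Y)` through `φ^# = Pull69.pullFun φ`. -/
@[reducible] noncomputable def functionFieldAlgebra :
    Algebra Y.functionField X.functionField :=
  (Pull69.pullFun φ).toAlgebra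

/-- The prime `⊥` of an affine chart is the generic point. -/
theorem fromSpec_bot {V : Y.Opens} (hV : IsAffineOpen V) (hη : genericPoint Y ∈ V) :
    haveI : Nonempty V := ⟨⟨genericPoint Y, hη⟩⟩
    hV.fromSpec ⟨⊥, Ideal.isPrime_bot⟩ = genericPoint Y := by
  have : Nonempty V := ⟨⟨genericPoint Y, hη⟩⟩
  have h1 := hV.primeIdealOf_genericPoint
  rw [genericPoint_eq_bot_of_affine] at h1
  have h2 := hV.fromSpec_primeIdealOf ⟨genericPoint Y, hη⟩
  rw [h1] at h2
  exact h2

/-- the chart data -/
theorem exists_affine_chart : ∃ V : Y.Opens, IsAffineOpen V ∧ genericPoint Y ∈ V := by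
  obtain ⟨_, ⟨V, hV, rfl⟩, hxV, -⟩ :=
    Y.isBasis_affineOpens.exists_subset_of_mem_open (Set.mem_univ (genericPoint Y)) isOpen_univ
  exact ⟨V, hV, hxV⟩

/-- All statements about `K(X)/K(Y)` for a finite dominant morphism, proved on one chart. -/
theorem functionField_aux [IsFinite φ] :
    letI := functionFieldAlgebra φ
    Module.Finite Y.functionField X.functionField ∧
    (Flat φ → Module.finrank Y.functionField X.functionField = φ.finrank (genericPoint Y)) ∧
    (Etale φ → Algebra.IsSeparable Y.functionField X.functionField) := by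
  obtain ⟨V, hV, hη⟩ := exists_affine_chart (Y := Y)
  have hU : IsAffineOpen (φ ⁻¹ᵁ V) := hV.preimage φ
  have hηX : genericPoint X ∈ φ ⁻¹ᵁ V := Pull69.genericPoint_mem_preimage φ hη
  have : Nonempty V := ⟨⟨genericPoint Y, hη⟩⟩
  have : Nonempty (φ ⁻¹ᵁ V) := ⟨⟨genericPoint X, hηX⟩⟩
  let _ := functionFieldAlgebra φ
  let algAB : Algebra Γ(Y, V) Γ(X, φ ⁻¹ᵁ V) := (φ.app V).hom.toAlgebra
  let algAL : Algebra Γ(Y, V) X.functionField :=
    ((algebraMap Γ(X, φ ⁻¹ᵁ V) X.functionField).comp (algebraMap Γ(Y, V) Γ(X, φ ⁻¹ᵁ V))).toAlgebra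
  have t1 : IsScalarTower Γ(Y, V) Γ(X, φ ⁻¹ᵁ V) X.functionField :=
    IsScalarTower.of_algebraMap_eq fun _ => rfl
  have t2 : IsScalarTower Γ(Y, V) Y.functionField X.functionField :=
    IsScalarTower.of_algebraMap_eq fun s => (Pull69.pullFun_germ φ V hη s).symm
  have f1 : IsFractionRing Γ(Y, V) Y.functionField :=
    functionField_isFractionRing_of_isAffineOpen Y V hV
  have f2 : IsFractionRing Γ(X, φ ⁻¹ᵁ V) X.functionField :=
    functionField_isFractionRing_of_isAffineOpen X (φ ⁻¹ᵁ V) hU
  have hfin : Module.Finite Γ(Y, V) Γ(X, φ ⁻¹ᵁ V) := IsFinite.finite_app φ V hV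
  refine ⟨finite_of_finite Γ(Y, V) Γ(X, φ ⁻¹ᵁ V) Y.functionField X.functionField, ?_, ?_⟩
  · intro hflat
    have hflat' : Module.Flat Γ(Y, V) Γ(X, φ ⁻¹ᵁ V) := by
      have h := Scheme.Hom.flat_appLE φ hV hU le_rfl
      rw [← Scheme.Hom.app_eq_appLE] at h
      exact h
    rw [finrank_eq_rankAtStalk Γ(Y, V) Γ(X, φ ⁻¹ᵁ V) Y.functionField X.functionField,
      ← fromSpec_bot hV hη, finrank_fromSpec φ hV]
    rfl
  · intro hetale
    have hetale' : Algebra.Etale Γ(Y, V) Γ(X, φ ⁻¹ᵁ V) := by
      have h := Scheme.Hom.etale_appLE φ hV hU le_rfl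
      rw [← Scheme.Hom.app_eq_appLE] at h
      exact h
    exact isSeparable_of_etale Γ(Y, V) Γ(X, φ ⁻¹ᵁ V) Y.functionField X.functionField

/-- (a1) The function field extension of a finite dominant morphism is finite. -/
theorem finiteDimensional_functionField [IsFinite φ] :
    letI := functionFieldAlgebra φ
    FiniteDimensional Y.functionField X.functionField :=
  (functionField_aux φ).1

/-- (a2) The degree of the function field extension of a finite flat dominant morphism is its
rank at the generic point. -/
theorem finrank_functionField [IsFinite φ] [Flat φ] :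
    letI := functionFieldAlgebra φ
    Module.finrank Y.functionField X.functionField = φ.finrank (genericPoint Y) :=
  (functionField_aux φ).2.1 inferInstance

/-- (a2') ... hence the rank at any point, when the rank is constant `= d`. -/
theorem finrank_functionField_eq_of_forall [IsFinite φ] [Flat φ] {d : ℕ}
    (hd : ∀ y, φ.finrank y = d) :
    letI := functionFieldAlgebra φ
    Module.finrank Y.functionField X.functionField = d := by
  rw [finrank_functionField φ, hd]

/-- (b) The function field extension of a finite étale dominant morphism is separable. -/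
theorem isSeparable_functionField [IsFinite φ] [Etale φ] :
    letI := functionFieldAlgebra φ
    Algebra.IsSeparable Y.functionField X.functionField :=
  (functionField_aux φ).2.2 inferInstance

/-- (c) helper50's `functionFieldMap` is `pullFun`. -/
theorem functionFieldMap_eq_pullFun (hdom : φ (genericPoint X) ⤳ genericPoint Y) :
    Norm.Centre50.functionFieldMap φ hdom = Pull69.pullFun φ := rfl

/-- (c) the three statements for the algebra structure given by `functionFieldMap`. -/
theorem finiteDimensional_functionFieldMap [IsFinite φ]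
    (hdom : φ (genericPoint X) ⤳ genericPoint Y) :
    letI := (Norm.Centre50.functionFieldMap φ hdom).toAlgebra
    FiniteDimensional Y.functionField X.functionField :=
  finiteDimensional_functionField φ

theorem finrank_functionFieldMap [IsFinite φ] [Flat φ]
    (hdom : φ (genericPoint X) ⤳ genericPoint Y) :
    letI := (Norm.Centre50.functionFieldMap φ hdom).toAlgebra
    Module.finrank Y.functionField X.functionField = φ.finrank (genericPoint Y) :=
  finrank_functionField φ

theorem isSeparable_functionFieldMap [IsFinite φ] [Etale φ]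
    (hdom : φ (genericPoint X) ⤳ genericPoint Y) :
    letI := (Norm.Centre50.functionFieldMap φ hdom).toAlgebra
    Algebra.IsSeparable Y.functionField X.functionField :=
  isSeparable_functionField φ

end Scheme

end Fermat.Agent.JAC.Fin.Degree31
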