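import Mathlib
import Fermat.Agent.JAC.Fin.GrowthScheme63

/-!
# JAC / S26 track, chapter FIN (helper63): GROW + FIN2 combined

On a proper integral scheme over a perfect field, all `L(kD)` (`k ≥ 0`) are finite dimensional
for an effective Cartier divisor `D` with affine complement; hence the sandwich of
`Fin/SandwichScheme63` holds without the finiteness hypothesis.
-/

set_option autoImplicit false

universe u

open AlgebraicGeometry CategoryTheory TopologicalSpace Opposite
open Fermat.Agent.JAC.Div2.Stalk69 Fermat.Agent.JAC.Div2.CaDiv69 Fermat.Agent.JAC.Div2.Pull69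
open Fermat.Agent.JAC.Fin.SandwichScheme63 Fermat.Agent.JAC.Fin.GrowthScheme63

namespace Fermat.Agent.JAC.Fin.ProperSandwich63

noncomputable section

variable {K : Type u} [Field K] {X Y : Scheme.{u}} [IsIntegral X] [IsIntegral Y]

/-- All `L(kD)`, `k ≥ 0`, are finite dimensional (proper, perfect base field, `D` effective with
affine complement). -/
theorem finite_LK_of_proper [PerfectField K] (f : Y ⟶ Spec (CommRingCat.of K)) [IsProper f]
    (D : CaDiv Y) (hD : D.IsEffective) (hU : IsAffineOpen D.suppCompl) :
    letI := algebraOfHom f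
    haveI := regularScalars_of_hom f
    ∀ k : ℕ, Module.Finite K (CaDiv.LK K (k • D)) := by
  let _ := algebraOfHom f
  have := regularScalars_of_hom f
  obtain ⟨g, x, -, c, C, -, -, hk⟩ := growth_of_proper f D hD hU
  intro k
  rcases Nat.eq_zero_or_pos k with rfl | hk0
  · have h1 : Module.Finite K (CaDiv.LK K (1 • D)) := (hk 1 le_rfl).1
    exact Submodule.finiteDimensional_of_le (CaDiv.LK_nsmul_mono K hD (Nat.zero_le 1))
  · exact (hk k hk0).1

/-- **FIN2 + GROW.**  The sandwich for an integral dominant `K`-morphism `φ : X ⟶ Y` onto a normal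
proper integral `K`-scheme, `K` perfect. -/
theorem sandwich_of_proper [PerfectField K] (φ : X ⟶ Y) [IsIntegralHom φ] [IsDominant φ]
    (fX : X ⟶ Spec (CommRingCat.of K)) (fY : Y ⟶ Spec (CommRingCat.of K)) (hφ : φ ≫ fY = fX)
    [IsProper fY] [∀ y : Y, IsIntegrallyClosed (Y.presheaf.stalk y)]
    (hfd : letI := (pullFun φ).toAlgebra
      FiniteDimensional Y.functionField X.functionField)
    (hsep : letI := (pullFun φ).toAlgebra
      Algebra.IsSeparable Y.functionField X.functionField)
    (D : CaDiv Y) (hD : D.IsEffective) (hU : IsAffineOpen D.suppCompl) :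
    letI := algebraOfHom fX
    haveI := regularScalars_of_hom fX
    letI := algebraOfHom fY
    haveI := regularScalars_of_hom fY
    letI := (pullFun φ).toAlgebra
    ∃ m : ℕ, ∀ k : ℕ, m ≤ k →
      Module.Finite K (CaDiv.LK K (k • CaDiv.pull φ D)) ∧
      Module.finrank Y.functionField X.functionField *
          Module.finrank K (CaDiv.LK K ((k - m) • D)) ≤
        Module.finrank K (CaDiv.LK K (k • CaDiv.pull φ D)) ∧
      Module.finrank K (CaDiv.LK K (k • CaDiv.pull φ D)) ≤
        Module.finrank Y.functionField X.functionField *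
          Module.finrank K (CaDiv.LK K ((k + m) • D)) := by
  have hY : CompactSpace Y := QuasiCompact.compactSpace_of_compactSpace fY
  have hX : CompactSpace X := QuasiCompact.compactSpace_of_compactSpace φ
  exact sandwich_finite_of_hom φ fX fY hφ hfd hsep D hD hU (finite_LK_of_proper fY D hD hU)

end

end Fermat.Agent.JAC.Fin.ProperSandwich63
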