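import Mathlib

set_option autoImplicit false

namespace Fermat.Agent.JAC.Fin.SemiLocal31

variable {R B L : Type*} [CommRing R] [CommRing B] [CommRing L] [Algebra R B] [Algebra B L]

/-- The ideal of denominators of `z : L` with respect to `B`. -/
def denomIdeal (B : Type*) {L : Type*} [CommRing B] [CommRing L] [Algebra B L] (z : L) :
    Ideal B where
  carrier := {s | ∃ b : B, z * algebraMap B L s = algebraMap B L b}
  zero_mem' := ⟨0, by simp⟩
  add_mem' := by
    rintro s s' ⟨b, hb⟩ ⟨b', hb'⟩
    exact ⟨b + b', by rw [map_add, mul_add, hb, hb', map_add]⟩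
  smul_mem' := by
    rintro c s ⟨b, hb⟩
    exact ⟨c * b, by rw [smul_eq_mul, map_mul, map_mul, mul_left_comm, hb]⟩

theorem mem_denomIdeal {z : L} {s : B} :
    s ∈ denomIdeal B z ↔ ∃ b : B, z * algebraMap B L s = algebraMap B L b := Iff.rfl

variable [Algebra.IsIntegral R B]

/-- **Semilocal criterion**: let `B` be integral over `R`, `p` a prime of `R` and `z : L` (any
`B`-algebra, e.g. `Frac B`). If `z` lies in `B_q` (has a denominator outside `q`) for every prime
`q` of `B` over `p`, then `z` has a denominator in `R ∖ p`, i.e. `z ∈ B_p = B[(R ∖ p)⁻¹]`. -/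
theorem exists_denominator_of_forall_liesOver (p : Ideal R) [p.IsPrime] (z : L)
    (h : ∀ q : Ideal B, q.IsPrime → q.comap (algebraMap R B) = p →
      ∃ s : B, s ∉ q ∧ ∃ b : B, z * algebraMap B L s = algebraMap B L b) :
    ∃ r : R, r ∉ p ∧ ∃ b : B, z * algebraMap B L (algebraMap R B r) = algebraMap B L b := by
  by_contra hcon
  push Not at hcon
  have hIP : (denomIdeal B z).comap (algebraMap R B) ≤ p := by
    intro r hr
    by_contra hrp
    obtain ⟨b, hb⟩ := mem_denomIdeal.1 (Ideal.mem_comap.1 hr)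
    exact hcon r hrp b hb
  obtain ⟨Q, hQ, hQp, hQc⟩ := Ideal.exists_ideal_over_prime_of_isIntegral p (denomIdeal B z) hIP
  obtain ⟨s, hsQ, hs⟩ := h Q hQp hQc
  exact hsQ (hQ (mem_denomIdeal.2 hs))

/-- The intersection of the `B_q`, `q` over `p`, is `B_p` (both inside `L`). -/
theorem forall_liesOver_iff (p : Ideal R) [p.IsPrime] (z : L) :
    (∀ q : Ideal B, q.IsPrime → q.comap (algebraMap R B) = p →
      ∃ s : B, s ∉ q ∧ ∃ b : B, z * algebraMap B L s = algebraMap B L b) ↔
    ∃ r : R, r ∉ p ∧ ∃ b : B, z * algebraMap B L (algebraMap R B r) = algebraMap B L b := by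
  refine ⟨exists_denominator_of_forall_liesOver p z, ?_⟩
  rintro ⟨r, hr, b, hb⟩ q _ hq
  refine ⟨algebraMap R B r, fun hmem => hr ?_, b, hb⟩
  rw [← hq]
  exact Ideal.mem_comap.2 hmem

/-- ... and hence `z` is integral over `R_p`. -/
theorem isIntegral_of_forall_liesOver (p : Ideal R) [p.IsPrime] (Rp : Type*) [CommRing Rp]
    [Algebra R Rp] [IsLocalization.AtPrime Rp p] [Algebra Rp L] [Algebra R L]
    [IsScalarTower R Rp L] [IsScalarTower R B L] (z : L)
    (h : ∀ q : Ideal B, q.IsPrime → q.comap (algebraMap R B) = p →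
      ∃ s : B, s ∉ q ∧ ∃ b : B, z * algebraMap B L s = algebraMap B L b) :
    IsIntegral Rp z := by
  obtain ⟨r, hr, b, hb⟩ := exists_denominator_of_forall_liesOver p z h
  have hu : IsUnit (algebraMap R Rp r) :=
    IsLocalization.map_units Rp (⟨r, hr⟩ : p.primeCompl)
  obtain ⟨u, hu'⟩ := hu.exists_right_inv
  have hb' : IsIntegral Rp (algebraMap B L b) :=
    IsIntegral.tower_top (R := R) ((Algebra.IsIntegral.isIntegral b).algebraMap)
  have hz : z = algebraMap B L b * algebraMap Rp L u := by
    have h1 : algebraMap B L (algebraMap R B r) * algebraMap Rp L u = 1 := by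
      rw [← IsScalarTower.algebraMap_apply R B L, IsScalarTower.algebraMap_apply R Rp L,
        ← map_mul, hu', map_one]
    rw [← hb, mul_assoc, h1, mul_one]
  rw [hz]
  exact hb'.mul isIntegral_algebraMap

end Fermat.Agent.JAC.Fin.SemiLocal31
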